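import Mathlib

/-!
# PROJECT D (S48), part A, brick A4 (tame half): fixed points on the projective line

`A` is a `2 × 2` matrix over a field `K` with `A ^ m = 1` and `m` invertible in `K`.

* `eq_smul_one_of_sq_zero` : `(A - a) ^ 2 = 0` forces `A = a`;
* `eq_smul_one_of_three`   : three pairwise non-proportional eigenvectors force `A` scalar;
* `exists_two_eigen`       : over an algebraically closed field a non-scalar such `A` has two
  non-proportional eigenvectors with distinct eigenvalues, and every eigenvector is proportional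
  to one of them.

Everything is written with the explicit `2 × 2` determinant `dd v w = v 0 * w 1 - v 1 * w 0`.
-/

set_option autoImplicit false

namespace Fermat.Agent.S48.A.TameP1.Geom

open Matrix

variable {K : Type*} [Field K]

/-- The determinant of the pair of columns `v`, `w`. -/
def dd (v w : Fin 2 → K) : K := v 0 * w 1 - v 1 * w 0

theorem dd_self (v : Fin 2 → K) : dd v v = 0 := by
  unfold dd; ring

theorem dd_swap (v w : Fin 2 → K) : dd w v = - dd v w := by
  unfold dd; ring

theorem dd_smul_right (c : K) (v w : Fin 2 → K) : dd v (c • w) = c * dd v w := by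
  simp only [dd, Pi.smul_apply, smul_eq_mul]; ring

theorem dd_smul_left (c : K) (v w : Fin 2 → K) : dd (c • v) w = c * dd v w := by
  simp only [dd, Pi.smul_apply, smul_eq_mul]; ring

theorem dd_add_left (v v' w : Fin 2 → K) : dd (v + v') w = dd v w + dd v' w := by
  simp only [dd, Pi.add_apply]; ring

/-- Cramer's rule. -/
theorem cramer (v w y : Fin 2 → K) : dd v w • y = dd y w • v + dd v y • w := by
  ext i
  fin_cases i <;> simp [dd] <;> ring

theorem vec_eq_zero_iff (v : Fin 2 → K) : v = 0 ↔ v 0 = 0 ∧ v 1 = 0 := by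
  constructor
  · rintro rfl; exact ⟨rfl, rfl⟩
  · rintro ⟨h0, h1⟩
    ext i
    fin_cases i
    · exact h0
    · exact h1

/-- Two nonzero vectors with vanishing determinant are proportional. -/
theorem exists_smul_of_dd_eq_zero {v w : Fin 2 → K} (hv : v ≠ 0) (h : dd v w = 0) :
    ∃ c : K, w = c • v := by
  unfold dd at h
  by_cases h0 : v 0 = 0
  · have h1 : v 1 ≠ 0 := fun h1 => hv ((vec_eq_zero_iff v).mpr ⟨h0, h1⟩)
    refine ⟨w 1 / v 1, ?_⟩
    ext i
    fin_cases i
    · simp only [Fin.zero_eta, Pi.smul_apply, smul_eq_mul, h0, mul_zero]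
      rw [h0, zero_mul, zero_sub, neg_eq_zero] at h
      exact (mul_eq_zero.mp h).resolve_left h1
    · simp only [Fin.mk_one, Pi.smul_apply, smul_eq_mul]
      field_simp
  · refine ⟨w 0 / v 0, ?_⟩
    ext i
    fin_cases i
    · simp only [Fin.zero_eta, Pi.smul_apply, smul_eq_mul]
      field_simp
    · simp only [Fin.mk_one, Pi.smul_apply, smul_eq_mul]
      field_simp
      linear_combination h

theorem dd_mulVec (A : Matrix (Fin 2) (Fin 2) K) (v w : Fin 2 → K) :
    dd (A *ᵥ v) (A *ᵥ w) = A.det * dd v w := by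
  simp only [dd, Matrix.mulVec_fin_two, Matrix.det_fin_two]
  simp
  ring

/-- A matrix acting as the scalar `c` on two non-proportional vectors is `c`. -/
theorem eq_smul_one_of_two {A : Matrix (Fin 2) (Fin 2) K} {v w : Fin 2 → K} {c : K}
    (hvw : dd v w ≠ 0) (hv : A *ᵥ v = c • v) (hw : A *ᵥ w = c • w) :
    A = c • (1 : Matrix (Fin 2) (Fin 2) K) := by
  have key : ∀ y : Fin 2 → K, A *ᵥ y = c • y := by
    intro y
    have h1 : dd v w • (A *ᵥ y) = dd v w • (c • y) := by
      rw [← Matrix.mulVec_smul, cramer v w y, Matrix.mulVec_add, Matrix.mulVec_smul,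
        Matrix.mulVec_smul, hv, hw, smul_comm (dd y w) c, smul_comm (dd v y) c, ← smul_add,
        ← cramer, smul_comm]
    exact smul_right_injective _ hvw h1
  ext i j
  have := congrFun (key (Pi.single j 1)) i
  rw [Matrix.mulVec_single_one] at this
  rw [Matrix.smul_apply, Matrix.one_apply]
  simpa [Pi.single_apply, eq_comm] using this

/-- `A ^ m = 1` with `m` invertible and `(A - a) ^ 2 = 0` force `A = a`. -/
theorem eq_smul_one_of_sq_zero {A : Matrix (Fin 2) (Fin 2) K} {m : ℕ} (hm : (m : K) ≠ 0)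
    (hA : A ^ m = 1) {a : K}
    (hN : (A - a • (1 : Matrix (Fin 2) (Fin 2) K)) * (A - a • (1 : Matrix (Fin 2) (Fin 2) K)) = 0) :
    A = a • (1 : Matrix (Fin 2) (Fin 2) K) := by
  set N := A - a • (1 : Matrix (Fin 2) (Fin 2) K) with hNdef
  have hAN : A = a • (1 : Matrix (Fin 2) (Fin 2) K) + N := by rw [hNdef]; abel
  have key : ∀ k : ℕ, A ^ k = (a ^ k) • (1 : Matrix (Fin 2) (Fin 2) K) +
      ((k : K) * a ^ (k - 1)) • N := by
    intro k
    induction k with
    | zero => simp
    | succ k ih =>
      rw [pow_succ, ih]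
      conv_lhs => rw [hAN]
      simp only [add_mul, mul_add, smul_mul_assoc, Matrix.mul_smul, Matrix.one_mul,
        Matrix.mul_one, hN, smul_zero, add_zero, smul_smul]
      rcases k with _ | k
      · simp
      · simp only [Nat.add_sub_cancel, Nat.cast_add, Nat.cast_one]
        module
  by_contra hne
  have hN0 : N ≠ 0 := by
    intro h0
    apply hne
    rw [hAN, h0, add_zero]
  have h1 := key m
  rw [hA] at h1
  -- multiply by `N`
  have h2 : N = (a ^ m) • N := by
    have := congrArg (fun B => B * N) h1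
    simp only [Matrix.one_mul, add_mul, smul_mul_assoc, hN, smul_zero, add_zero] at this
    exact this
  have ham : a ^ m = 1 := by
    have h3 : ((1 : K) - a ^ m) • N = 0 := by
      rw [sub_smul, one_smul, ← h2, sub_self]
    rcases smul_eq_zero.mp h3 with h | h
    · exact (sub_eq_zero.mp h).symm
    · exact absurd h hN0
  rw [ham, one_smul] at h1
  have h4 : ((m : K) * a ^ (m - 1)) • N = 0 := by
    have := h1
    rw [left_eq_add] at this
    exact this
  rcases smul_eq_zero.mp h4 with h | h
  · rcases mul_eq_zero.mp h with h | h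
    · exact hm h
    · have ha0 : a ≠ 0 := by
        rintro rfl
        have hm0 : m ≠ 0 := by
          rintro rfl
          simp at hm
        rw [zero_pow hm0] at ham
        exact zero_ne_one ham
      exact pow_ne_zero _ ha0 h
  · exact hN0 h

/-- Three pairwise non-proportional eigenvectors force a scalar matrix. -/
theorem eq_smul_one_of_three {A : Matrix (Fin 2) (Fin 2) K} {v1 v2 v3 : Fin 2 → K}
    {c1 c2 c3 : K} (h12 : dd v1 v2 ≠ 0) (h13 : dd v1 v3 ≠ 0) (h23 : dd v2 v3 ≠ 0)
    (e1 : A *ᵥ v1 = c1 • v1) (e2 : A *ᵥ v2 = c2 • v2) (e3 : A *ᵥ v3 = c3 • v3) :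
    A = c1 • (1 : Matrix (Fin 2) (Fin 2) K) := by
  -- `D v3 = α v1 + β v2`
  have hcr := cramer v1 v2 v3
  have hA : A *ᵥ (dd v1 v2 • v3) = A *ᵥ (dd v3 v2 • v1 + dd v1 v3 • v2) := by rw [hcr]
  rw [Matrix.mulVec_smul, Matrix.mulVec_add, Matrix.mulVec_smul, Matrix.mulVec_smul, e1, e2, e3]
    at hA
  -- compare with `c3 • (D v3)`
  have hB : dd v1 v2 • c3 • v3 = c3 • (dd v3 v2 • v1 + dd v1 v3 • v2) := by
    rw [smul_comm, hcr]
  rw [hA] at hB
  -- apply `dd · v2` and `dd v1 ·`
  have hc13 : c1 = c3 := by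
    have := congrArg (fun y => dd y v2) hB
    simp only [dd_add_left, dd_smul_left, dd_self, mul_zero, add_zero, smul_add] at this
    have h32 : dd v3 v2 ≠ 0 := by rw [dd_swap]; exact neg_ne_zero.mpr h23
    have h : dd v3 v2 * dd v1 v2 * (c1 - c3) = 0 := by linear_combination this
    rcases mul_eq_zero.mp h with h | h
    · rcases mul_eq_zero.mp h with h | h
      · exact absurd h h32
      · exact absurd h h12
    · exact sub_eq_zero.mp h
  have hc23 : c2 = c3 := by
    have := congrArg (fun y => dd v1 y) hB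
    have hadd : ∀ y y' : Fin 2 → K, dd v1 (y + y') = dd v1 y + dd v1 y' := by
      intro y y'
      simp only [dd, Pi.add_apply]; ring
    simp only [hadd, dd_smul_right, dd_self, mul_zero, zero_add, smul_add] at this
    have h : dd v1 v3 * dd v1 v2 * (c2 - c3) = 0 := by linear_combination this
    rcases mul_eq_zero.mp h with h | h
    · rcases mul_eq_zero.mp h with h | h
      · exact absurd h h13
      · exact absurd h h12
    · exact sub_eq_zero.mp h
  exact eq_smul_one_of_two h12 e1 (by rw [e2, hc23, hc13])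

/-- A matrix killing every vector is zero. -/
theorem eq_zero_of_forall_mulVec {M : Matrix (Fin 2) (Fin 2) K} (h : ∀ u : Fin 2 → K, M *ᵥ u = 0) :
    M = 0 := by
  ext i j
  have := congrFun (h (Pi.single j 1)) i
  rw [Matrix.mulVec_single_one] at this
  simpa using this

/-- Over an algebraically closed field, a non-scalar `A` with `A ^ m = 1`, `m` invertible, has two
non-proportional eigenvectors, and every eigenvector is proportional to one of them. -/
theorem exists_two_eigen [IsAlgClosed K] {A : Matrix (Fin 2) (Fin 2) K} {m : ℕ} (hm : (m : K) ≠ 0)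
    (hA : A ^ m = 1) (hns : ∀ c : K, A ≠ c • (1 : Matrix (Fin 2) (Fin 2) K)) :
    ∃ (v w : Fin 2 → K) (a b : K), v ≠ 0 ∧ w ≠ 0 ∧ dd v w ≠ 0 ∧ A *ᵥ v = a • v ∧ A *ᵥ w = b • w ∧
      ∀ (y : Fin 2 → K) (c : K), A *ᵥ y = c • y → dd v y = 0 ∨ dd w y = 0 := by
  -- a root of the characteristic polynomial
  obtain ⟨a, ha⟩ : ∃ a : K, a * a - (A 0 0 + A 1 1) * a + (A 0 0 * A 1 1 - A 0 1 * A 1 0) = 0 := by
    have hdeg : (Polynomial.C (1 : K) * Polynomial.X ^ 2 + Polynomial.C (-(A 0 0 + A 1 1)) *
        Polynomial.X + Polynomial.C (A 0 0 * A 1 1 - A 0 1 * A 1 0)).degree ≠ 0 := by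
      rw [Polynomial.degree_quadratic one_ne_zero]
      norm_num
    obtain ⟨a, ha⟩ := IsAlgClosed.exists_root _ hdeg
    refine ⟨a, ?_⟩
    simp only [Polynomial.IsRoot.def, Polynomial.eval_add, Polynomial.eval_mul, Polynomial.eval_C,
      Polynomial.eval_pow, Polynomial.eval_X] at ha
    linear_combination ha
  set b := A 0 0 + A 1 1 - a with hb
  have hdet : (A - a • (1 : Matrix (Fin 2) (Fin 2) K)).det = 0 := by
    rw [Matrix.det_fin_two]
    simp only [Matrix.sub_apply, Matrix.smul_apply, Matrix.one_apply_eq, smul_eq_mul, mul_one,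
      Matrix.one_apply_ne (show (0 : Fin 2) ≠ 1 by decide),
      Matrix.one_apply_ne (show (1 : Fin 2) ≠ 0 by decide), mul_zero, sub_zero]
    linear_combination ha
  obtain ⟨v, hv0, hv⟩ := Matrix.exists_mulVec_eq_zero_iff.mpr hdet
  have hAv : A *ᵥ v = a • v := by
    rw [Matrix.sub_mulVec, Matrix.smul_mulVec, Matrix.one_mulVec, sub_eq_zero] at hv
    exact hv
  have hP2 : (A - b • (1 : Matrix (Fin 2) (Fin 2) K)) * (A - a • (1 : Matrix (Fin 2) (Fin 2) K))
      = 0 := by
    ext i j
    fin_cases i <;> fin_cases j <;>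
      simp [Matrix.mul_apply, Fin.sum_univ_two, hb] <;>
      first | ring1 | linear_combination (-1 : K) * ha
  by_cases hab : a = b
  · exfalso
    rw [← hab] at hP2
    exact hns a (eq_smul_one_of_sq_zero hm hA hP2)
  obtain ⟨u, hu⟩ : ∃ u : Fin 2 → K, (A - a • (1 : Matrix (Fin 2) (Fin 2) K)) *ᵥ u ≠ 0 := by
    by_contra hcon
    rw [not_exists] at hcon
    have h0 := eq_zero_of_forall_mulVec fun u => not_not.mp (hcon u)
    exact hns a (sub_eq_zero.mp h0)
  set w := (A - a • (1 : Matrix (Fin 2) (Fin 2) K)) *ᵥ u with hw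
  have hAw : A *ᵥ w = b • w := by
    have : (A - b • (1 : Matrix (Fin 2) (Fin 2) K)) *ᵥ w = 0 := by
      rw [hw, Matrix.mulVec_mulVec, hP2, Matrix.zero_mulVec]
    rw [Matrix.sub_mulVec, Matrix.smul_mulVec, Matrix.one_mulVec, sub_eq_zero] at this
    exact this
  have hvw : dd v w ≠ 0 := by
    intro h
    obtain ⟨c, hc⟩ := exists_smul_of_dd_eq_zero hv0 h
    have h1 : A *ᵥ w = a • w := by
      rw [hc, Matrix.mulVec_smul, hAv, smul_comm]
    rw [hAw] at h1
    have h2 : (b - a) • w = 0 := by rw [sub_smul, h1, sub_self]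
    rcases smul_eq_zero.mp h2 with h3 | h3
    · exact hab (sub_eq_zero.mp h3).symm
    · exact hu h3
  refine ⟨v, w, a, b, hv0, hu, hvw, hAv, hAw, ?_⟩
  intro y c hy
  have hcr := cramer v w y
  have h1 : A *ᵥ (dd v w • y) = A *ᵥ (dd y w • v + dd v y • w) := by rw [hcr]
  rw [Matrix.mulVec_smul, Matrix.mulVec_add, Matrix.mulVec_smul, Matrix.mulVec_smul, hAv, hAw, hy]
    at h1
  have h2 : dd v w • c • y = c • (dd y w • v + dd v y • w) := by rw [smul_comm, hcr]
  rw [h1] at h2
  have hadd : ∀ z z' : Fin 2 → K, dd v (z + z') = dd v z + dd v z' := by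
    intro z z'
    simp only [dd, Pi.add_apply]; ring
  have e1 := congrArg (fun z => dd z w) h2
  have e2 := congrArg (fun z => dd v z) h2
  simp only [dd_add_left, dd_smul_left, dd_self, mul_zero, add_zero, smul_add] at e1
  simp only [hadd, dd_smul_right, dd_self, mul_zero, zero_add, smul_add] at e2
  have f1 : dd y w * dd v w * (a - c) = 0 := by linear_combination e1
  have f2 : dd v y * dd v w * (b - c) = 0 := by linear_combination e2
  rcases mul_eq_zero.mp f1 with f1 | f1
  · rcases mul_eq_zero.mp f1 with f1 | f1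
    · right
      rw [dd_swap, f1, neg_zero]
    · exact absurd f1 hvw
  rcases mul_eq_zero.mp f2 with f2 | f2
  · rcases mul_eq_zero.mp f2 with f2 | f2
    · left
      exact f2
    · exact absurd f2 hvw
  exfalso
  exact hab ((sub_eq_zero.mp f1).trans (sub_eq_zero.mp f2).symm)

end Fermat.Agent.S48.A.TameP1.Geom
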