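import Mathlib
import Fermat.Agent.S48.A.TameP1.Geom

/-!
# PROJECT D (S48), part A, brick A4 (tame half): the two fibre counts

`G` is a subgroup of `GL (Fin 2) K` all of whose elements satisfy `g ^ m = 1`, `m` invertible in `K`.

* `eq_one_of_unipotent`   : an element of `G` fixing a nonzero vector, of determinant `1`, is `1`;
* `card_le_two_of_eigen`  : at most two elements of `G` with a given common eigenvector have a
  given (trace, determinant);
* `card_le_two_of_scalar` : at most two scalar multiples `c • h₀` (with `c • 1` in play) share the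
  determinant of `h₀`.
-/

set_option autoImplicit false

namespace Fermat.Agent.S48.A.TameP1.Count

open Matrix Fermat.Agent.S48.A.TameP1.Geom

variable {K : Type*} [Field K]

theorem eq_one_of_unipotent (u : GL (Fin 2) K) {m : ℕ} (hm : (m : K) ≠ 0) (hu : u ^ m = 1)
    {v : Fin 2 → K} (hv : v ≠ 0) (huv : (u : Matrix (Fin 2) (Fin 2) K) *ᵥ v = v)
    (hdet : (u : Matrix (Fin 2) (Fin 2) K).det = 1) : u = 1 := by
  set A := (u : Matrix (Fin 2) (Fin 2) K) with hAdef
  have hA : A ^ m = 1 := by
    rw [hAdef, ← Units.val_pow_eq_pow_val, hu]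
    rfl
  have hdet0 : (A - 1).det = 0 :=
    Matrix.exists_mulVec_eq_zero_iff.mp ⟨v, hv, by rw [Matrix.sub_mulVec, Matrix.one_mulVec, huv,
      sub_self]⟩
  rw [Matrix.det_fin_two] at hdet0 hdet
  simp only [Matrix.sub_apply, Matrix.one_apply_eq,
    Matrix.one_apply_ne (show (0 : Fin 2) ≠ 1 by decide),
    Matrix.one_apply_ne (show (1 : Fin 2) ≠ 0 by decide), sub_zero] at hdet0
  have e2 : A 0 0 + A 1 1 = 2 := by linear_combination hdet - hdet0
  have hsq : (A - (1 : K) • (1 : Matrix (Fin 2) (Fin 2) K)) *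
      (A - (1 : K) • (1 : Matrix (Fin 2) (Fin 2) K)) = 0 := by
    ext i j
    fin_cases i <;> fin_cases j <;> simp [Matrix.mul_apply, Fin.sum_univ_two]
    · linear_combination (A 0 0) * e2 - hdet
    · linear_combination (A 0 1) * e2
    · linear_combination (A 1 0) * e2
    · linear_combination (A 1 1) * e2 - hdet
  have h1 := eq_smul_one_of_sq_zero hm hA hsq
  rw [one_smul] at h1
  exact Units.ext h1

/-- An eigenvalue is a root of the characteristic polynomial. -/
theorem eigen_root {A : Matrix (Fin 2) (Fin 2) K} {v : Fin 2 → K} (hv : v ≠ 0) {c : K}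
    (hc : A *ᵥ v = c • v) : c * c - A.trace * c + A.det = 0 := by
  have hdet0 : (A - c • (1 : Matrix (Fin 2) (Fin 2) K)).det = 0 :=
    Matrix.exists_mulVec_eq_zero_iff.mp ⟨v, hv, by rw [Matrix.sub_mulVec, Matrix.smul_mulVec,
      Matrix.one_mulVec, hc, sub_self]⟩
  rw [Matrix.det_fin_two] at hdet0
  simp only [Matrix.sub_apply, Matrix.smul_apply, Matrix.one_apply_eq, smul_eq_mul, mul_one,
    Matrix.one_apply_ne (show (0 : Fin 2) ≠ 1 by decide),
    Matrix.one_apply_ne (show (1 : Fin 2) ≠ 0 by decide), mul_zero, sub_zero] at hdet0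
  rw [Matrix.trace_fin_two, Matrix.det_fin_two]
  linear_combination hdet0

theorem card_le_two_of_eigen (G : Subgroup (GL (Fin 2) K)) {m : ℕ} (hm : (m : K) ≠ 0)
    (hGm : ∀ g ∈ G, g ^ m = 1) {v : Fin 2 → K} (hv : v ≠ 0) (t δ : K)
    (F : Finset (GL (Fin 2) K))
    (hF : ∀ g ∈ F, g ∈ G ∧ (∃ c : K, (g : Matrix (Fin 2) (Fin 2) K) *ᵥ v = c • v) ∧
      (g : Matrix (Fin 2) (Fin 2) K).trace = t ∧ (g : Matrix (Fin 2) (Fin 2) K).det = δ) :
    F.card ≤ 2 := by
  classical
  let c : GL (Fin 2) K → K := fun g => if h : g ∈ F then Classical.choose (hF g h).2.1 else 0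
  have hc : ∀ g ∈ F, (g : Matrix (Fin 2) (Fin 2) K) *ᵥ v = c g • v := by
    intro g hg
    simp only [c, dif_pos hg]
    exact Classical.choose_spec (hF g hg).2.1
  set p : Polynomial K := Polynomial.C 1 * Polynomial.X ^ 2 + Polynomial.C (-t) * Polynomial.X +
    Polynomial.C δ with hp
  have hpdeg : p.natDegree = 2 := Polynomial.natDegree_quadratic one_ne_zero
  have hp0 : p ≠ 0 := by
    intro h
    rw [h, Polynomial.natDegree_zero] at hpdeg
    exact absurd hpdeg (by norm_num)
  have hmaps : Set.MapsTo c (F : Set (GL (Fin 2) K)) (p.roots.toFinset : Set K) := by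
    intro g hg
    have hg' : g ∈ F := hg
    have hroot := eigen_root hv (hc g hg')
    rw [(hF g hg').2.2.1, (hF g hg').2.2.2] at hroot
    rw [Finset.mem_coe, Multiset.mem_toFinset, Polynomial.mem_roots hp0, Polynomial.IsRoot.def, hp]
    simp only [Polynomial.eval_add, Polynomial.eval_mul, Polynomial.eval_C,
      Polynomial.eval_pow, Polynomial.eval_X]
    linear_combination hroot
  have hinj : Set.InjOn c (F : Set (GL (Fin 2) K)) := by
    intro g hg h hh hgh
    have hg' : g ∈ F := hg
    have hh' : h ∈ F := hh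
    have hu : g⁻¹ * h = 1 := by
      refine eq_one_of_unipotent (g⁻¹ * h) hm
        (hGm _ (G.mul_mem (G.inv_mem (hF g hg').1) (hF h hh').1)) hv ?_ ?_
      · have e1 : ((g⁻¹ * h : GL (Fin 2) K) : Matrix (Fin 2) (Fin 2) K) *ᵥ v =
            ((g⁻¹ : GL (Fin 2) K) : Matrix (Fin 2) (Fin 2) K) *ᵥ
              ((h : Matrix (Fin 2) (Fin 2) K) *ᵥ v) := by
          rw [Matrix.mulVec_mulVec]
          rfl
        rw [e1, hc h hh', ← hgh, ← hc g hg', Matrix.mulVec_mulVec]
        have : ((g⁻¹ : GL (Fin 2) K) : Matrix (Fin 2) (Fin 2) K) *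
            (g : Matrix (Fin 2) (Fin 2) K) = 1 := by
          rw [← Units.val_mul, inv_mul_cancel]
          rfl
        rw [this, Matrix.one_mulVec]
      · have hd : Matrix.GeneralLinearGroup.det g = Matrix.GeneralLinearGroup.det h := by
          apply Units.ext
          rw [Matrix.GeneralLinearGroup.val_det_apply, Matrix.GeneralLinearGroup.val_det_apply,
            (hF g hg').2.2.2, (hF h hh').2.2.2]
        have : Matrix.GeneralLinearGroup.det (g⁻¹ * h) = 1 := by
          rw [map_mul, map_inv, hd, inv_mul_cancel]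
        have h2 := congrArg Units.val this
        rw [Matrix.GeneralLinearGroup.val_det_apply] at h2
        exact h2
    calc g = g * 1 := (mul_one g).symm
      _ = g * (g⁻¹ * h) := by rw [hu]
      _ = h := by rw [mul_inv_cancel_left]
  calc F.card ≤ p.roots.toFinset.card := Finset.card_le_card_of_injOn c hmaps hinj
    _ ≤ p.roots.card := Multiset.toFinset_card_le _
    _ ≤ p.natDegree := Polynomial.card_roots' p
    _ = 2 := hpdeg

/-- At most two elements of the form `c • h₀` share the determinant of `h₀`. -/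
theorem card_le_two_of_scalar (h₀ : GL (Fin 2) K) (F : Finset (GL (Fin 2) K))
    (hF : ∀ g ∈ F, (∃ c : K, (g : Matrix (Fin 2) (Fin 2) K) =
        c • (h₀ : Matrix (Fin 2) (Fin 2) K)) ∧
      (g : Matrix (Fin 2) (Fin 2) K).det = (h₀ : Matrix (Fin 2) (Fin 2) K).det) :
    F.card ≤ 2 := by
  classical
  let c : GL (Fin 2) K → K := fun g => if h : g ∈ F then Classical.choose (hF g h).1 else 0
  have hc : ∀ g ∈ F, (g : Matrix (Fin 2) (Fin 2) K) = c g • (h₀ : Matrix (Fin 2) (Fin 2) K) := by
    intro g hg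
    simp only [c, dif_pos hg]
    exact Classical.choose_spec (hF g hg).1
  have hd0 : (h₀ : Matrix (Fin 2) (Fin 2) K).det ≠ 0 := by
    rw [← Matrix.GeneralLinearGroup.val_det_apply]
    exact Units.ne_zero _
  have hmaps : Set.MapsTo c (F : Set (GL (Fin 2) K)) (({1, -1} : Finset K) : Set K) := by
    intro g hg
    have hg' : g ∈ F := hg
    have h1 := (hF g hg').2
    rw [hc g hg', Matrix.det_smul, Fintype.card_fin] at h1
    have h2 : (c g ^ 2 - 1) * (h₀ : Matrix (Fin 2) (Fin 2) K).det = 0 := by
      linear_combination h1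
    have h3 : (c g - 1) * (c g + 1) = 0 := by
      rcases mul_eq_zero.mp h2 with h | h
      · linear_combination h
      · exact absurd h hd0
    simp only [Finset.coe_insert, Finset.coe_singleton, Set.mem_insert_iff, Set.mem_singleton_iff]
    rcases mul_eq_zero.mp h3 with h | h
    · left; exact sub_eq_zero.mp h
    · right; exact eq_neg_of_add_eq_zero_left h
  have hinj : Set.InjOn c (F : Set (GL (Fin 2) K)) := by
    intro g hg h hh hgh
    apply Units.ext
    rw [hc g hg, hc h hh, hgh]
  calc F.card ≤ ({1, -1} : Finset K).card := Finset.card_le_card_of_injOn c hmaps hinj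
    _ ≤ 2 := Finset.card_le_two

end Fermat.Agent.S48.A.TameP1.Count
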