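import Mathlib

/-!
# PROJECT D (S48), part A, brick A4 (tame half): the arithmetic of the orbit count

Pure natural-number arithmetic behind the classical fixed-point count on the projective line:
if `s i * e i = n`, `2 ≤ e i` and `∑ s i + 2 (n - 1) = r n` (`r` the number of orbits), then some
`s i ≤ 2` or `n ≤ 60`.
-/

set_option autoImplicit false

namespace Fermat.Agent.S48.A.TameP1.Arith

/-- One stabiliser of order `2`, a second one of order `≤ 3`. -/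
theorem aux2 {s1 s2 s3 e2 e3 n : ℕ} (h1 : s1 * 2 = n) (h2 : s2 * e2 = n) (h3 : s3 * e3 = n)
    (he2 : 2 ≤ e2) (he2' : e2 ≤ 3) (he3 : 2 ≤ e3) (_hs2 : 3 ≤ s2) (hs3 : 3 ≤ s3)
    (hsum : s1 + s2 + s3 = n + 2) : n ≤ 60 := by
  by_contra hn
  have hn' : 60 < n := Nat.lt_of_not_le hn
  interval_cases e2
  · omega
  · have h6 : s3 * e3 < s3 * 6 := by omega
    have he3' : e3 < 6 := Nat.lt_of_mul_lt_mul_left h6
    interval_cases e3 <;> omega

/-- One stabiliser of order `2`. -/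
theorem aux1 {s1 s2 s3 e2 e3 n : ℕ} (h1 : s1 * 2 = n) (h2 : s2 * e2 = n) (h3 : s3 * e3 = n)
    (he2 : 2 ≤ e2) (he3 : 2 ≤ e3) (hs2 : 3 ≤ s2) (hs3 : 3 ≤ s3)
    (hsum : s1 + s2 + s3 = n + 2) : n ≤ 60 := by
  by_cases h23 : e2 ≤ 3
  · exact aux2 h1 h2 h3 he2 h23 he3 hs2 hs3 hsum
  by_cases h33 : e3 ≤ 3
  · exact aux2 h1 h3 h2 he3 h33 he2 hs3 hs2 (by omega)
  exfalso
  have a2 : s2 * 4 ≤ s2 * e2 := Nat.mul_le_mul_left s2 (by omega)
  have a3 : s3 * 4 ≤ s3 * e3 := Nat.mul_le_mul_left s3 (by omega)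
  omega

/-- Three orbits. -/
theorem arith_three {s1 s2 s3 e1 e2 e3 n : ℕ} (h1 : s1 * e1 = n) (h2 : s2 * e2 = n)
    (h3 : s3 * e3 = n) (he1 : 2 ≤ e1) (he2 : 2 ≤ e2) (he3 : 2 ≤ e3) (hs1 : 3 ≤ s1) (hs2 : 3 ≤ s2)
    (hs3 : 3 ≤ s3) (hsum : s1 + s2 + s3 = n + 2) : n ≤ 60 := by
  by_cases c1 : e1 = 2
  · subst c1
    exact aux1 h1 h2 h3 he2 he3 hs2 hs3 hsum
  by_cases c2 : e2 = 2
  · subst c2
    exact aux1 h2 h1 h3 he1 he3 hs1 hs3 (by omega)
  by_cases c3 : e3 = 2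
  · subst c3
    exact aux1 h3 h1 h2 he1 he2 hs1 hs2 (by omega)
  exfalso
  have a1 : s1 * 3 ≤ s1 * e1 := Nat.mul_le_mul_left s1 (by omega)
  have a2 : s2 * 3 ≤ s2 * e2 := Nat.mul_le_mul_left s2 (by omega)
  have a3 : s3 * 3 ≤ s3 * e3 := Nat.mul_le_mul_left s3 (by omega)
  omega

/-- The general orbit count. -/
theorem arith_orbits {ι : Type*} [Fintype ι] (s e : ι → ℕ) (n : ℕ) (hn : 2 ≤ n)
    (hse : ∀ i, s i * e i = n) (he : ∀ i, 2 ≤ e i)
    (hsum : ∑ i, s i + 2 * (n - 1) = Fintype.card ι * n) : (∃ i, s i ≤ 2) ∨ n ≤ 60 := by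
  by_contra hcon
  rw [not_or] at hcon
  obtain ⟨hs, hn60⟩ := hcon
  have hs3 : ∀ i, 3 ≤ s i := fun i => by
    by_contra h
    exact hs ⟨i, by omega⟩
  have hle : ∑ i, 2 * s i ≤ ∑ _i : ι, n := by
    refine Finset.sum_le_sum fun i _ => ?_
    have := Nat.mul_le_mul_left (s i) (he i)
    have := hse i
    omega
  rw [← Finset.mul_sum, Finset.sum_const, Finset.card_univ, smul_eq_mul] at hle
  have hge : ∑ _i : ι, 3 ≤ ∑ i, s i := Finset.sum_le_sum fun i _ => hs3 i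
  rw [Finset.sum_const, Finset.card_univ, smul_eq_mul] at hge
  obtain ⟨r, hr⟩ : ∃ r, Fintype.card ι = r := ⟨_, rfl⟩
  rw [hr] at hle hge hsum
  set S := ∑ i, s i with hS
  have hr4 : r * n < 4 * n := by omega
  have hr4' : r < 4 := Nat.lt_of_mul_lt_mul_right hr4
  interval_cases r
  · omega
  · omega
  · omega
  · let eq3 : ι ≃ Fin 3 := Fintype.equivFinOfCardEq hr
    have hsum3 : S = s (eq3.symm 0) + s (eq3.symm 1) + s (eq3.symm 2) := by
      rw [hS, ← Equiv.sum_comp eq3.symm, Fin.sum_univ_three]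
    have hsum' : s (eq3.symm 0) + s (eq3.symm 1) + s (eq3.symm 2) = n + 2 := by omega
    exact hn60 (arith_three (hse (eq3.symm 0)) (hse (eq3.symm 1)) (hse (eq3.symm 2))
      (he _) (he _) (he _) (hs3 _) (hs3 _) (hs3 _) hsum')

end Fermat.Agent.S48.A.TameP1.Arith
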