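import Mathlib
import Fermat.Agent.S48.A.TameP1.Arith

/-!
# PROJECT D (S48), part A, brick A4 (tame half): the orbit count

A finite group `G` acts on a type `X`; `Z` is the kernel of the action and every element outside
`Z` has exactly two fixed points.  Then some point has a stabiliser of index at most `2`, or
`|G| ≤ 60 |Z|`.  (Burnside's count on the finite invariant set of all fixed points of elements
outside `Z`, then `Arith.arith_orbits`.)
-/

set_option autoImplicit false

namespace Fermat.Agent.S48.A.TameP1.Orbits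

open MulAction

variable {G X : Type*} [Group G] [MulAction G X]

/-- The invariant set of the points fixed by some element outside `Z`. -/
def fixSub (Z : Subgroup G) (hZ : ∀ g : G, g ∈ Z ↔ ∀ x : X, g • x = x) : SubMulAction G X where
  carrier := {x | ∃ g : G, g ∉ Z ∧ g • x = x}
  smul_mem' := by
    rintro h x ⟨g, hg, hgx⟩
    refine ⟨h * g * h⁻¹, ?_, ?_⟩
    · intro hmem
      apply hg
      rw [hZ] at hmem ⊢
      intro y
      have := hmem (h • y)
      rw [mul_smul, mul_smul, inv_smul_smul] at this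
      exact smul_left_cancel h this
    · rw [mul_smul, mul_smul, inv_smul_smul, hgx]

theorem mem_fixSub (Z : Subgroup G) (hZ : ∀ g : G, g ∈ Z ↔ ∀ x : X, g • x = x) (x : X) :
    x ∈ fixSub Z hZ ↔ ∃ g : G, g ∉ Z ∧ g • x = x := Iff.rfl

theorem small_orbit_or_card_le [Finite G] (Z : Subgroup G)
    (hZ : ∀ g : G, g ∈ Z ↔ ∀ x : X, g • x = x)
    (h2 : ∀ g : G, g ∉ Z → (fixedBy X g).ncard = 2) :
    (∃ x : X, Nat.card G ≤ 2 * Nat.card (stabilizer G x)) ∨ Nat.card G ≤ 60 * Nat.card Z := by
  classical
  have : Fintype G := Fintype.ofFinite G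
  by_cases htop : ∀ g : G, g ∈ Z
  · right
    have : Z = ⊤ := by
      ext g
      simp [htop g]
    rw [this, Subgroup.card_top]
    omega
  rw [not_forall] at htop
  obtain ⟨g₀, hg₀⟩ := htop
  set Ω := fixSub Z hZ with hΩ
  -- finiteness
  have hfin : (Ω.carrier).Finite := by
    have hsub : Ω.carrier ⊆ ⋃ g ∈ {g : G | g ∉ Z}, fixedBy X g := by
      rintro x ⟨g, hg, hgx⟩
      simp only [Set.mem_iUnion]
      exact ⟨g, hg, hgx⟩
    refine Set.Finite.subset ?_ hsub
    refine Set.Finite.biUnion (Set.toFinite _) ?_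
    intro g hg
    exact Set.finite_of_ncard_ne_zero (by rw [h2 g hg]; norm_num)
  have : Finite Ω := hfin
  have : Fintype Ω := Fintype.ofFinite _
  have : Fintype (Quotient (orbitRel G Ω)) := Fintype.ofFinite _
  have : ∀ g : G, Fintype (fixedBy Ω g) := fun g => Fintype.ofFinite _
  have hB := sum_card_fixedBy_eq_card_orbits_mul_card_group G Ω
  -- the fixed point counts
  have hfixZ : ∀ g : G, g ∈ Z → Fintype.card (fixedBy Ω g) = Fintype.card Ω := by
    intro g hg
    rw [← Nat.card_eq_fintype_card, ← Nat.card_eq_fintype_card]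
    refine Nat.card_congr ⟨fun x => x.1, fun x => ⟨x, ?_⟩, fun _ => rfl, fun _ => rfl⟩
    rw [mem_fixedBy]
    exact Subtype.ext ((hZ g).mp hg x.1)
  have hfixN : ∀ g : G, g ∉ Z → Fintype.card (fixedBy Ω g) = 2 := by
    intro g hg
    rw [← h2 g hg, ← Nat.card_eq_fintype_card, ← _root_.Nat.card_coe_set_eq]
    refine Nat.card_congr ⟨fun x => ⟨x.1.1, ?_⟩, fun x => ⟨⟨x.1, ⟨g, hg, x.2⟩⟩, ?_⟩, fun _ => rfl,
      fun _ => rfl⟩
    · have := x.2
      rw [mem_fixedBy] at this ⊢
      exact congrArg Subtype.val this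
    · rw [mem_fixedBy]
      exact Subtype.ext x.2
  set z := Nat.card Z with hz
  set n := Z.index with hn
  have hzn : z * n = Nat.card G := Subgroup.card_mul_index Z
  have hzpos : 0 < z := Nat.card_pos
  have hcardG : Fintype.card G = z * n := by rw [hzn, Nat.card_eq_fintype_card]
  have hn2 : 2 ≤ n := by
    have h0 : n ≠ 0 := Subgroup.index_ne_zero_of_finite
    have h1 : n ≠ 1 := by
      rw [hn, Ne, Subgroup.index_eq_one]
      intro h
      exact hg₀ (h ▸ Subgroup.mem_top g₀)
    omega
  have hsumG : ∑ g : G, Fintype.card (fixedBy Ω g) = z * Fintype.card Ω + 2 * (z * n - z) := by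
    have h1 : ∀ g : G, Fintype.card (fixedBy Ω g) = if g ∈ Z then Fintype.card Ω else 2 := by
      intro g
      split_ifs with h
      · exact hfixZ g h
      · exact hfixN g h
    rw [Finset.sum_congr rfl fun g _ => h1 g, Finset.sum_ite, Finset.sum_const, Finset.sum_const,
      smul_eq_mul, smul_eq_mul]
    have hcZ : (Finset.univ.filter fun g : G => g ∈ Z).card = z := by
      rw [hz, Nat.card_eq_fintype_card, Fintype.card_subtype]
    have hcN : (Finset.univ.filter fun g : G => ¬ g ∈ Z).card = z * n - z := by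
      have := Finset.card_filter_add_card_filter_not (s := (Finset.univ : Finset G))
        (fun g : G => g ∈ Z)
      rw [hcZ, Finset.card_univ, hcardG] at this
      omega
    rw [hcZ, hcN, mul_comm (z * n - z) 2]
  -- orbit sizes
  let ι := Quotient (orbitRel G Ω)
  let rep : ι → Ω := fun ω => ω.out
  have hstabZ : ∀ x : Ω, ∃ e : ℕ, 2 ≤ e ∧ Nat.card (stabilizer G x) = e * z := by
    intro x
    obtain ⟨g, hg, hgx⟩ := x.2
    have hle : Z ≤ stabilizer G x := by
      intro h hh
      rw [mem_stabilizer_iff]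
      exact Subtype.ext ((hZ h).mp hh x.1)
    obtain ⟨e, he⟩ := Subgroup.card_dvd_of_le hle
    refine ⟨e, ?_, by rw [he, mul_comm]⟩
    have hlt : Nat.card Z < Nat.card (stabilizer G x) := by
      have hgs : g ∈ stabilizer G x := by
        rw [mem_stabilizer_iff]
        exact Subtype.ext hgx
      have hss : (Z : Set G) ⊂ (stabilizer G x : Set G) :=
        ⟨hle, fun hcon => hg (hcon hgs)⟩
      have := Set.ncard_lt_ncard hss (Set.toFinite _)
      rwa [← _root_.Nat.card_coe_set_eq, ← _root_.Nat.card_coe_set_eq] at this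
    rw [he] at hlt
    by_contra hcon
    have : e ≤ 1 := by omega
    have := Nat.mul_le_mul_left (Nat.card Z) this
    omega
  choose e he2 hez using hstabZ
  let s : ι → ℕ := fun ω => (stabilizer G (rep ω)).index
  have hse : ∀ ω : ι, s ω * e (rep ω) = n := by
    intro ω
    have h1 : Nat.card (stabilizer G (rep ω)) * s ω = z * n := by
      rw [hzn]
      exact Subgroup.card_mul_index _
    rw [hez] at h1
    have : z * (s ω * e (rep ω)) = z * n := by rw [← h1]; ring
    exact Nat.eq_of_mul_eq_mul_left hzpos this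
  have hcardΩ : Fintype.card Ω = ∑ ω : ι, s ω := by
    have h1 := Fintype.card_congr (selfEquivSigmaOrbitsQuotientStabilizer G Ω)
    rw [Fintype.card_sigma] at h1
    rw [h1]
    refine Finset.sum_congr rfl fun ω _ => ?_
    rw [← Nat.card_eq_fintype_card]
    exact (Subgroup.index_eq_card _).symm
  have hsum : ∑ ω : ι, s ω + 2 * (n - 1) = Fintype.card ι * n := by
    have h1 : z * (∑ ω : ι, s ω + 2 * (n - 1)) = z * (Fintype.card ι * n) := by
      have h3 : z * n - z = z * (n - 1) := by
        rw [Nat.mul_sub, mul_one]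
      rw [hsumG, hcardG, hcardΩ, h3] at hB
      rw [mul_add, mul_left_comm z 2 (n - 1), hB]
      ring
    exact Nat.eq_of_mul_eq_mul_left hzpos h1
  rcases Arith.arith_orbits s (fun ω => e (rep ω)) n hn2 hse (fun ω => he2 _) hsum with
    ⟨ω, hω⟩ | h60
  · left
    refine ⟨((rep ω : Ω) : X), ?_⟩
    have hst : stabilizer G ((rep ω : Ω) : X) = stabilizer G (rep ω) :=
      (SubMulAction.stabilizer_of_subMul (rep ω)).symm
    rw [hst, ← Subgroup.card_mul_index (stabilizer G (rep ω))]
    have : Nat.card (stabilizer G (rep ω)) * s ω ≤ Nat.card (stabilizer G (rep ω)) * 2 :=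
      Nat.mul_le_mul_left _ hω
    calc Nat.card (stabilizer G (rep ω)) * (stabilizer G (rep ω)).index
        ≤ Nat.card (stabilizer G (rep ω)) * 2 := this
      _ = 2 * Nat.card (stabilizer G (rep ω)) := mul_comm _ _
  · right
    rw [← hzn]
    calc z * n ≤ z * 60 := Nat.mul_le_mul_left z h60
      _ = 60 * z := mul_comm _ _

end Fermat.Agent.S48.A.TameP1.Orbits
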