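import Mathlib
import Fermat.Agent.S48.A.TameP1.Geom

/-!
# PROJECT D (S48), part A, brick A4 (tame half): `GL₂(K)` on the projective line

Dictionary between the action of `GL (Fin 2) K` on `ℙ K (Fin 2 → K)` and eigenvectors, and the
count of fixed points of an element of finite order prime to the characteristic.
-/

set_option autoImplicit false

namespace Fermat.Agent.S48.A.TameP1.Proj

open scoped LinearAlgebra.Projectivization
open Projectivization Matrix Fermat.Agent.S48.A.TameP1.Geom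

variable {K : Type*} [Field K]

theorem mk_eq_mk_iff_dd {v w : Fin 2 → K} (hv : v ≠ 0) (hw : w ≠ 0) :
    mk K v hv = mk K w hw ↔ dd v w = 0 := by
  rw [mk_eq_mk_iff']
  constructor
  · rintro ⟨a, rfl⟩
    rw [dd_smul_left, dd_self, mul_zero]
  · intro h
    have h' : dd w v = 0 := by rw [dd_swap, h, neg_zero]
    obtain ⟨c, hc⟩ := exists_smul_of_dd_eq_zero hw h'
    exact ⟨c, hc.symm⟩

theorem glSmul_eq_mulVec (g : GL (Fin 2) K) (v : Fin 2 → K) :
    g • v = (g : Matrix (Fin 2) (Fin 2) K) *ᵥ v := rfl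

theorem fixed_iff_eigen (g : GL (Fin 2) K) {v : Fin 2 → K} (hv : v ≠ 0) :
    g • mk K v hv = mk K v hv ↔ ∃ c : K, (g : Matrix (Fin 2) (Fin 2) K) *ᵥ v = c • v := by
  rw [smul_mk, mk_eq_mk_iff_dd _ hv, glSmul_eq_mulVec]
  constructor
  · intro h
    have h' : dd v ((g : Matrix (Fin 2) (Fin 2) K) *ᵥ v) = 0 := by rw [dd_swap, h, neg_zero]
    exact exists_smul_of_dd_eq_zero hv h'
  · rintro ⟨c, hc⟩
    rw [hc, dd_smul_left, dd_self, mul_zero]

/-- A scalar matrix fixes every point. -/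
theorem smul_eq_self_of_scalar (g : GL (Fin 2) K) {c : K}
    (hc : (g : Matrix (Fin 2) (Fin 2) K) = c • (1 : Matrix (Fin 2) (Fin 2) K))
    (x : ℙ K (Fin 2 → K)) : g • x = x := by
  induction x using Projectivization.ind with
  | h v hv =>
    rw [fixed_iff_eigen]
    exact ⟨c, by rw [hc, Matrix.smul_mulVec, Matrix.one_mulVec]⟩

/-- An element fixing every point is a scalar matrix. -/
theorem exists_scalar_of_forall_fixed (g : GL (Fin 2) K) (h : ∀ x : ℙ K (Fin 2 → K), g • x = x) :
    ∃ c : K, (g : Matrix (Fin 2) (Fin 2) K) = c • (1 : Matrix (Fin 2) (Fin 2) K) := by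
  have h0 : (![1, 0] : Fin 2 → K) ≠ 0 := by
    intro h; simpa using congrFun h 0
  have h1 : (![0, 1] : Fin 2 → K) ≠ 0 := by
    intro h; simpa using congrFun h 1
  have h2 : (![1, 1] : Fin 2 → K) ≠ 0 := by
    intro h; simpa using congrFun h 0
  obtain ⟨c0, e0⟩ := (fixed_iff_eigen g h0).mp (h _)
  obtain ⟨c1, e1⟩ := (fixed_iff_eigen g h1).mp (h _)
  obtain ⟨c2, e2⟩ := (fixed_iff_eigen g h2).mp (h _)
  refine ⟨c0, eq_smul_one_of_three (v1 := ![1, 0]) (v2 := ![0, 1]) (v3 := ![1, 1]) ?_ ?_ ?_ e0 e1 e2⟩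
  · simp [dd]
  · simp [dd]
  · simp [dd]

/-- Over an algebraically closed field, an element of finite order prime to the characteristic
which does not fix every point has exactly two fixed points. -/
theorem ncard_fixedBy [IsAlgClosed K] (g : GL (Fin 2) K) {m : ℕ} (hm : (m : K) ≠ 0)
    (hg : g ^ m = 1) (hns : ¬ ∀ x : ℙ K (Fin 2 → K), g • x = x) :
    (MulAction.fixedBy (ℙ K (Fin 2 → K)) g).ncard = 2 := by
  have hA : (g : Matrix (Fin 2) (Fin 2) K) ^ m = 1 := by
    rw [← Units.val_pow_eq_pow_val, hg]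
    rfl
  have hscal : ∀ c : K, (g : Matrix (Fin 2) (Fin 2) K) ≠ c • (1 : Matrix (Fin 2) (Fin 2) K) :=
    fun c hc => hns (smul_eq_self_of_scalar g hc)
  obtain ⟨v, w, a, b, hv0, hw0, hvw, hAv, hAw, hall⟩ := exists_two_eigen hm hA hscal
  have hset : MulAction.fixedBy (ℙ K (Fin 2 → K)) g = {mk K v hv0, mk K w hw0} := by
    ext x
    induction x using Projectivization.ind with
    | h y hy =>
      rw [MulAction.mem_fixedBy, fixed_iff_eigen, Set.mem_insert_iff, Set.mem_singleton_iff,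
        mk_eq_mk_iff_dd, mk_eq_mk_iff_dd]
      constructor
      · rintro ⟨c, hc⟩
        rcases hall y c hc with h | h
        · left; rw [dd_swap, h, neg_zero]
        · right; rw [dd_swap, h, neg_zero]
      · rintro (h | h)
        · have h' : dd v y = 0 := by rw [dd_swap, h, neg_zero]
          obtain ⟨c, rfl⟩ := exists_smul_of_dd_eq_zero hv0 h'
          exact ⟨a, by rw [Matrix.mulVec_smul, hAv, smul_comm]⟩
        · have h' : dd w y = 0 := by rw [dd_swap, h, neg_zero]
          obtain ⟨c, rfl⟩ := exists_smul_of_dd_eq_zero hw0 h'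
          exact ⟨b, by rw [Matrix.mulVec_smul, hAw, smul_comm]⟩
  rw [hset]
  exact Set.ncard_pair (fun h => hvw ((mk_eq_mk_iff_dd hv0 hw0).mp h))

end Fermat.Agent.S48.A.TameP1.Proj
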